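import Mathlib

/-!
# S56, node [GW-DUAL], cell [D4] (bridge), part (b): pure algebra (prefix `s56gdr_`)

* `s56gdr_qzEquiv p : ↥(s56gdr_qzTors p) ≃+ ZMod p`: the `p`-torsion of `ℚ/ℤ` is `ZMod p`;
* `s56gdr_toZMod`: a biadditive `ℚ/ℤ`-valued pairing with `p`-torsion values is a biadditive
  `ZMod p`-valued pairing with the same zeros;
* `s56gdr_bilin`: a biadditive `ZMod p`-valued pairing of `ZMod p`-modules is bilinear;
* `s56gdr_extend`: a bilinear pairing on subspaces extends to the ambient spaces.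
-/

set_option autoImplicit false

namespace Fermat.Agent.S56

section QZ

variable (p : ℕ)

/-- The `p`-torsion of `ℚ/ℤ`. -/
def s56gdr_qzTors : AddSubgroup (AddCircle (1 : ℚ)) :=
  (nsmulAddMonoidHom (α := AddCircle (1 : ℚ)) p).ker

theorem s56gdr_mem_qzTors (t : AddCircle (1 : ℚ)) : t ∈ s56gdr_qzTors p ↔ p • t = 0 :=
  Iff.rfl

variable [hp : Fact p.Prime]

/-- The generator `1/p` of the `p`-torsion of `ℚ/ℤ`. -/
def s56gdr_qzGen : AddCircle (1 : ℚ) := ((1 / (p : ℚ) : ℚ) : AddCircle (1 : ℚ))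

theorem s56gdr_addOrderOf_qzGen : addOrderOf (s56gdr_qzGen p) = p :=
  AddCircle.addOrderOf_period_div hp.out.pos

theorem s56gdr_nsmul_qzGen : p • s56gdr_qzGen p = 0 := by
  rw [← addOrderOf_dvd_iff_nsmul_eq_zero, s56gdr_addOrderOf_qzGen]

/-- `ZMod p → ℚ/ℤ`, `1 ↦ 1/p`. -/
noncomputable def s56gdr_qzHom : ZMod p →+ AddCircle (1 : ℚ) :=
  ZMod.lift p ⟨zmultiplesHom _ (s56gdr_qzGen p), by
    rw [zmultiplesHom_apply, natCast_zsmul]
    exact s56gdr_nsmul_qzGen p⟩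

theorem s56gdr_qzHom_intCast (n : ℤ) : s56gdr_qzHom p (n : ZMod p) = n • s56gdr_qzGen p := by
  rw [s56gdr_qzHom, ZMod.lift_coe]
  rfl

theorem s56gdr_qzHom_injective : Function.Injective (s56gdr_qzHom p) := by
  rw [injective_iff_map_eq_zero]
  intro a ha
  obtain ⟨n, rfl⟩ := ZMod.intCast_surjective a
  rw [s56gdr_qzHom_intCast] at ha
  rw [ZMod.intCast_zmod_eq_zero_iff_dvd]
  have := (addOrderOf_dvd_iff_zsmul_eq_zero (x := s56gdr_qzGen p) (i := n)).2 ha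
  rwa [s56gdr_addOrderOf_qzGen] at this

theorem s56gdr_qzHom_mem (a : ZMod p) : s56gdr_qzHom p a ∈ s56gdr_qzTors p := by
  rw [s56gdr_mem_qzTors, ← map_nsmul]
  have : p • a = 0 := by
    rw [nsmul_eq_mul, ZMod.natCast_self, zero_mul]
  rw [this, map_zero]

theorem s56gdr_qzHom_surj (t : AddCircle (1 : ℚ)) (ht : t ∈ s56gdr_qzTors p) :
    ∃ a : ZMod p, s56gdr_qzHom p a = t := by
  obtain ⟨m, -, rfl⟩ := (AddCircle.nsmul_eq_zero_iff hp.out.pos).1 ht
  refine ⟨((m : ℤ) : ZMod p), ?_⟩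
  rw [s56gdr_qzHom_intCast, natCast_zsmul, s56gdr_qzGen, ← AddCircle.coe_nsmul]
  congr 1
  rw [nsmul_eq_mul, mul_one]
  ring

/-- The `p`-torsion of `ℚ/ℤ` is `ZMod p`. -/
noncomputable def s56gdr_qzEquiv : ↥(s56gdr_qzTors p) ≃+ ZMod p :=
  (AddEquiv.ofBijective
    ((s56gdr_qzHom p).codRestrict (s56gdr_qzTors p) (s56gdr_qzHom_mem p))
    ⟨fun a b h => s56gdr_qzHom_injective p (congrArg Subtype.val h),
     fun t => by
      obtain ⟨a, ha⟩ := s56gdr_qzHom_surj p t.1 t.2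
      exact ⟨a, Subtype.ext ha⟩⟩).symm

/-- A biadditive `ℚ/ℤ`-valued pairing whose values are killed by `p`, as a `ZMod p`-valued
pairing. -/
noncomputable def s56gdr_toZMod {A A' : Type*} [AddCommGroup A] [AddCommGroup A']
    (β : A →+ A' →+ AddCircle (1 : ℚ)) (h : ∀ x y, p • β x y = 0) : A →+ A' →+ ZMod p :=
  AddMonoidHom.mk' (fun x => AddMonoidHom.mk' (fun y => s56gdr_qzEquiv p ⟨β x y, h x y⟩)
      (fun y y' => by
        rw [← map_add]
        congr 1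
        exact Subtype.ext (map_add (β x) y y')))
    (fun x x' => by
      ext y
      show s56gdr_qzEquiv p ⟨β (x + x') y, _⟩ =
        s56gdr_qzEquiv p ⟨β x y, _⟩ + s56gdr_qzEquiv p ⟨β x' y, _⟩
      rw [← map_add]
      congr 1
      apply Subtype.ext
      show β (x + x') y = β x y + β x' y
      rw [map_add]; rfl)

theorem s56gdr_toZMod_apply {A A' : Type*} [AddCommGroup A] [AddCommGroup A']
    (β : A →+ A' →+ AddCircle (1 : ℚ)) (h : ∀ x y, p • β x y = 0) (x : A) (y : A') :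
    s56gdr_toZMod p β h x y = s56gdr_qzEquiv p ⟨β x y, h x y⟩ := rfl

theorem s56gdr_toZMod_eq_zero_iff {A A' : Type*} [AddCommGroup A] [AddCommGroup A']
    (β : A →+ A' →+ AddCircle (1 : ℚ)) (h : ∀ x y, p • β x y = 0) (x : A) (y : A') :
    s56gdr_toZMod p β h x y = 0 ↔ β x y = 0 := by
  rw [s56gdr_toZMod_apply, AddEquiv.map_eq_zero_iff]
  exact ⟨fun h' => congrArg Subtype.val h', fun h' => Subtype.ext h'⟩

theorem s56gdr_toZMod_sum {ι : Type*} {A A' : ι → Type*} [∀ i, AddCommGroup (A i)]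
    [∀ i, AddCommGroup (A' i)] (s : Finset ι) (β : ∀ i, A i →+ A' i →+ AddCircle (1 : ℚ))
    (h : ∀ i x y, p • β i x y = 0) (x : ∀ i, A i) (y : ∀ i, A' i) :
    ∑ i ∈ s, s56gdr_toZMod p (β i) (h i) (x i) (y i) = 0 ↔ ∑ i ∈ s, β i (x i) (y i) = 0 := by
  have hmem : ∑ i ∈ s, β i (x i) (y i) ∈ s56gdr_qzTors p :=
    AddSubgroup.sum_mem _ fun i _ => h i (x i) (y i)
  have key : ∑ i ∈ s, s56gdr_toZMod p (β i) (h i) (x i) (y i) =
      s56gdr_qzEquiv p ⟨∑ i ∈ s, β i (x i) (y i), hmem⟩ := by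
    have : (⟨∑ i ∈ s, β i (x i) (y i), hmem⟩ : ↥(s56gdr_qzTors p)) =
        ∑ i ∈ s, (⟨β i (x i) (y i), h i (x i) (y i)⟩ : ↥(s56gdr_qzTors p)) := by
      apply Subtype.ext
      rw [AddSubgroup.val_finsetSum]
    rw [this, map_sum]
    rfl
  rw [key, AddEquiv.map_eq_zero_iff]
  exact ⟨fun h' => congrArg Subtype.val h', fun h' => Subtype.ext h'⟩

end QZ

section bilin

variable (p : ℕ) {X Y : Type*} [AddCommGroup X] [AddCommGroup Y] [Module (ZMod p) X]
  [Module (ZMod p) Y]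

/-- A biadditive `ZMod p`-valued pairing of `ZMod p`-modules is bilinear. -/
def s56gdr_bilin (β : X →+ Y →+ ZMod p) : X →ₗ[ZMod p] Y →ₗ[ZMod p] ZMod p :=
  AddMonoidHom.toZModLinearMap p
    (AddMonoidHom.mk' (fun x => AddMonoidHom.toZModLinearMap p (β x)) (fun x x' => by
      ext y
      show β (x + x') y = β x y + β x' y
      rw [map_add]; rfl))

@[simp]
theorem s56gdr_bilin_apply (β : X →+ Y →+ ZMod p) (x : X) (y : Y) :
    s56gdr_bilin p β x y = β x y := rfl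

end bilin

section extend

variable {K : Type*} [Field K] {X Y : Type*} [AddCommGroup X] [AddCommGroup Y] [Module K X]
  [Module K Y]

/-- A bilinear pairing on subspaces extends to the ambient spaces (linear complements). -/
theorem s56gdr_extend (X₀ : Submodule K X) (Y₀ : Submodule K Y)
    (B₀ : ↥X₀ →ₗ[K] ↥Y₀ →ₗ[K] K) :
    ∃ B : X →ₗ[K] Y →ₗ[K] K, ∀ (x : X) (hx : x ∈ X₀) (y : Y) (hy : y ∈ Y₀),
      B x y = B₀ ⟨x, hx⟩ ⟨y, hy⟩ := by
  obtain ⟨X₁, hX⟩ := Submodule.exists_isCompl X₀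
  obtain ⟨Y₁, hY⟩ := Submodule.exists_isCompl Y₀
  refine ⟨B₀.compl₁₂ (Submodule.projectionOnto X₀ X₁ hX)
    (Submodule.projectionOnto Y₀ Y₁ hY), fun x hx y hy => ?_⟩
  rw [LinearMap.compl₁₂_apply]
  have h1 := Submodule.projectionOnto_apply_left hX ⟨x, hx⟩
  have h2 := Submodule.projectionOnto_apply_left hY ⟨y, hy⟩
  simp only at h1 h2
  rw [h1, h2]

end extend

end Fermat.Agent.S56
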