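import Fermat.Agent.S56.GW.Dual.D4.LocBridge
import Fermat.Agent.S56.GW.Dual.D4.Extend

/-!
# S56, node [GW-DUAL], cell [D4] (bridge), part (c) (prefix `s56gdr_`)

`s56gdr_LvDualSys p M` is the verbatim mirror of `s56gw_DualSys p M` in the level cohomology of
S55 (block [F]): biadditive `ℚ/ℤ`-valued local pairings on `lvH1 (tl_levelsLoc q)`, finiteness,
non-degeneracy, reciprocity and middle exactness for `lvH1 (tl_levelsS S)` and the level
localisation maps `(tl_locMor S (primeLocalToGlobal q) ·).H1`.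

`s56gdr_ofLv : s56gdr_LvDualSys p M → s56gw_DualSys p M` and
`s56gdr_main : s56gdr_LvDual_stmt → s56gw_Dual_stmt`.
-/

set_option autoImplicit false

open CategoryTheory Module groupCohomology ExtCitation Fermat.Agent.S55

namespace Fermat.Agent.S56

local notation "GQ" => (AlgebraicClosure ℚ ≃ₐ[ℚ] AlgebraicClosure ℚ)

variable {p : ℕ} [Fact p.Prime]

/-- **The level-cohomology form of `s56gw_DualSys`.** -/
structure s56gdr_LvDualSys (p : ℕ) [Fact p.Prime] (M : Rep.{0} (ZMod p) GQ) where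
  /-- the local pairings, with values in `ℚ/ℤ` -/
  β : ∀ q : Nat.Primes,
    s56gdr_lvLoc M q →+ s56gdr_lvLoc (s56gw_dual M) q →+ AddCircle (1 : ℚ)
  fin : ∀ q, Finite (s56gdr_lvLoc M q)
  fin' : ∀ q, Finite (s56gdr_lvLoc (s56gw_dual M) q)
  left : ∀ q x, (∀ y, β q x y = 0) → x = 0
  right : ∀ q y, (∀ x, β q x y = 0) → y = 0
  recip : ∀ S : Finset Nat.Primes, pPrime p ∈ S → s56gw_UnrOut S M →
    ∀ (x : s56gdr_lvGlob M S) (y : s56gdr_lvGlob (s56gw_dual M) S),
      ∑ q ∈ S, β q (s56gdr_lvRes M q S x) (s56gdr_lvRes (s56gw_dual M) q S y) = 0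
  middle : ∀ S : Finset Nat.Primes, pPrime p ∈ S → s56gw_UnrOut S M →
    ∀ ξ : ∀ q : Nat.Primes, s56gdr_lvLoc M q,
      (∀ y : s56gdr_lvGlob (s56gw_dual M) S,
        ∑ q ∈ S, β q (ξ q) (s56gdr_lvRes (s56gw_dual M) q S y) = 0) →
      ∃ x : s56gdr_lvGlob M S, ∀ q ∈ S, s56gdr_lvRes M q S x = ξ q

/-- **The level-cohomology form of `s56gw_Dual_stmt`.** -/
def s56gdr_LvDual_stmt : Prop :=
  ∀ (p : ℕ) [Fact p.Prime], p ≠ 2 →
  ∀ (M : Rep.{0} (ZMod p) GQ) [FiniteDimensional (ZMod p) M],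
    s56gw_Smooth M → Nonempty (s56gdr_LvDualSys p M)

section torsion

variable {G : Type} [Group G] (L : LevelSys G) (N : Rep.{0} (ZMod p) G)

/-- Level cohomology with `𝔽_p`-coefficients is killed by `p`. -/
theorem s56gdr_nsmul_lvH1 (x : lvH1 L (tl_Act N)) : p • x = 0 := by
  obtain ⟨c, rfl⟩ := lvH1mk_surjective x
  rw [← map_nsmul]
  have : p • c = 0 := by
    apply Subtype.ext
    funext g
    show p • (c.1 g) = 0
    exact ZModModule.char_nsmul_eq_zero p (show N from c.1 g)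
  rw [this, map_zero]

end torsion

namespace s56gdr_LvDualSys

variable {M : Rep.{0} (ZMod p) GQ} (DS : s56gdr_LvDualSys p M)

theorem nsmul_β (q : Nat.Primes) (x : s56gdr_lvLoc M q) (y : s56gdr_lvLoc (s56gw_dual M) q) :
    p • DS.β q x y = 0 := by
  have h : DS.β q (p • x) y = p • DS.β q x y := by
    rw [map_nsmul]; rfl
  rw [← h, s56gdr_nsmul_lvH1, map_zero]; rfl

/-- The `ZMod p`-valued pairing on level cohomology. -/
noncomputable def βp (q : Nat.Primes) :
    s56gdr_lvLoc M q →+ s56gdr_lvLoc (s56gw_dual M) q →+ ZMod p :=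
  s56gdr_toZMod p (DS.β q) (DS.nsmul_β q)

theorem βp_eq_zero_iff (q : Nat.Primes) (x : s56gdr_lvLoc M q)
    (y : s56gdr_lvLoc (s56gw_dual M) q) : DS.βp q x y = 0 ↔ DS.β q x y = 0 :=
  s56gdr_toZMod_eq_zero_iff p _ _ x y

/-- The pairing transported to the continuous classes. -/
noncomputable def γ (q : Nat.Primes) :
    ↥(s56gw_cH1 M q) →+ ↥(s56gw_cH1 (s56gw_dual M) q) →+ ZMod p :=
  AddMonoidHom.mk' (fun x => (DS.βp q ((s56gdr_locEquiv M q).symm x)).comp
      ((s56gdr_locEquiv (s56gw_dual M) q).symm : _ →+ _)) (fun x x' => by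
    ext y
    simp only [map_add, AddMonoidHom.coe_comp, Function.comp_apply, AddMonoidHom.add_apply])

theorem γ_apply (q : Nat.Primes) (x : ↥(s56gw_cH1 M q))
    (y : ↥(s56gw_cH1 (s56gw_dual M) q)) :
    DS.γ q x y = DS.βp q ((s56gdr_locEquiv M q).symm x)
      ((s56gdr_locEquiv (s56gw_dual M) q).symm y) := rfl

/-- The extended bilinear pairing on all of `H¹ × H¹`. -/
noncomputable def B (q : Nat.Primes) :
    H1 (s56gw_res M q) →ₗ[ZMod p] H1 (s56gw_res (s56gw_dual M) q) →ₗ[ZMod p] ZMod p :=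
  (s56gdr_extend (s56gw_cH1 M q) (s56gw_cH1 (s56gw_dual M) q)
    (s56gdr_bilin p (DS.γ q))).choose

theorem B_apply (q : Nat.Primes) (x : H1 (s56gw_res M q)) (hx : x ∈ s56gw_cH1 M q)
    (y : H1 (s56gw_res (s56gw_dual M) q)) (hy : y ∈ s56gw_cH1 (s56gw_dual M) q) :
    DS.B q x y = DS.βp q ((s56gdr_locEquiv M q).symm ⟨x, hx⟩)
      ((s56gdr_locEquiv (s56gw_dual M) q).symm ⟨y, hy⟩) :=
  (s56gdr_extend (s56gw_cH1 M q) (s56gw_cH1 (s56gw_dual M) q)
    (s56gdr_bilin p (DS.γ q))).choose_spec x hx y hy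

/-- `B` on the images of level classes. -/
theorem B_locEquiv (q : Nat.Primes) (x : s56gdr_lvLoc M q)
    (y : s56gdr_lvLoc (s56gw_dual M) q) :
    DS.B q (s56gdr_locEquiv M q x : ↥(s56gw_cH1 M q))
      (s56gdr_locEquiv (s56gw_dual M) q y : ↥(s56gw_cH1 (s56gw_dual M) q)) = DS.βp q x y := by
  rw [DS.B_apply q _ (Subtype.property _) _ (Subtype.property _)]
  simp only [Subtype.coe_eta, AddEquiv.symm_apply_apply]

end s56gdr_LvDualSys

/-- **[D4]**: a level-cohomology duality system gives a duality system in the frozen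
vocabulary. -/
noncomputable def s56gdr_ofLv {M : Rep.{0} (ZMod p) GQ} (DS : s56gdr_LvDualSys p M) :
    s56gw_DualSys p M where
  B := DS.B
  fin q := by
    have := DS.fin q
    have : Finite ↥(s56gw_cH1 M q) := Finite.of_equiv _ (s56gdr_locEquiv M q).toEquiv
    exact Module.Finite.of_finite
  fin' q := by
    have := DS.fin' q
    have : Finite ↥(s56gw_cH1 (s56gw_dual M) q) :=
      Finite.of_equiv _ (s56gdr_locEquiv (s56gw_dual M) q).toEquiv
    exact Module.Finite.of_finite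
  left q x hx h := by
    obtain ⟨x₀, hx₀⟩ := (s56gdr_locEquiv M q).surjective ⟨x, hx⟩
    have h0 : x₀ = 0 := DS.left q x₀ fun y => by
      rw [← DS.βp_eq_zero_iff, ← DS.B_locEquiv, hx₀]
      exact h _ (Subtype.property _)
    have := congrArg Subtype.val hx₀
    rw [h0, map_zero] at this
    exact this.symm
  right q y hy h := by
    obtain ⟨y₀, hy₀⟩ := (s56gdr_locEquiv (s56gw_dual M) q).surjective ⟨y, hy⟩
    have h0 : y₀ = 0 := DS.right q y₀ fun x => by
      rw [← DS.βp_eq_zero_iff, ← DS.B_locEquiv, hy₀]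
      exact h _ (Subtype.property _)
    have := congrArg Subtype.val hy₀
    rw [h0, map_zero] at this
    exact this.symm
  recip S hpS hur x hx y hy := by
    obtain ⟨x₀, hx₀⟩ := (s56gdr_globEquiv S M).surjective ⟨x, hx⟩
    obtain ⟨y₀, hy₀⟩ := (s56gdr_globEquiv S (s56gw_dual M)).surjective ⟨y, hy⟩
    have hx' : x = ((s56gdr_globEquiv S M x₀ : ↥(continuousH1S S M)) : H1 M) := by rw [hx₀]
    have hy' : y = ((s56gdr_globEquiv S (s56gw_dual M) y₀ :
        ↥(continuousH1S S (s56gw_dual M))) : H1 (s56gw_dual M)) := by rw [hy₀]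
    have key : ∀ q ∈ S, DS.B q (s56gw_loc M q x) (s56gw_loc (s56gw_dual M) q y) =
        DS.βp q (s56gdr_lvRes M q S x₀) (s56gdr_lvRes (s56gw_dual M) q S y₀) := by
      intro q _
      rw [hx', hy', s56gdr_loc_comm, s56gdr_loc_comm, DS.B_locEquiv]
    rw [Finset.sum_congr rfl key]
    exact (s56gdr_toZMod_sum p S DS.β DS.nsmul_β _ _).2 (DS.recip S hpS hur x₀ y₀)
  middle S hpS hur ξ hξ h := by
    classical
    -- the level family
    let ξ' : ∀ q : Nat.Primes, s56gdr_lvLoc M q := fun q =>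
      if hq : q ∈ S then (s56gdr_locEquiv M q).symm ⟨ξ q, hξ q hq⟩ else 0
    have hξ' : ∀ q ∈ S, ((s56gdr_locEquiv M q (ξ' q) : ↥(s56gw_cH1 M q)) :
        H1 (s56gw_res M q)) = ξ q := by
      intro q hq
      simp only [ξ', dif_pos hq, AddEquiv.apply_symm_apply]
    have horth : ∀ y₀ : s56gdr_lvGlob (s56gw_dual M) S,
        ∑ q ∈ S, DS.β q (ξ' q) (s56gdr_lvRes (s56gw_dual M) q S y₀) = 0 := by
      intro y₀
      rw [← s56gdr_toZMod_sum p S DS.β DS.nsmul_β]
      have h1 := h ((s56gdr_globEquiv S (s56gw_dual M) y₀ :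
        ↥(continuousH1S S (s56gw_dual M))) : H1 (s56gw_dual M)) (Subtype.property _)
      rw [← h1]
      refine Finset.sum_congr rfl fun q hq => ?_
      rw [s56gdr_loc_comm, ← hξ' q hq, DS.B_locEquiv]
      rfl
    obtain ⟨x₀, hx₀⟩ := DS.middle S hpS hur ξ' horth
    refine ⟨((s56gdr_globEquiv S M x₀ : ↥(continuousH1S S M)) : H1 M), Subtype.property _,
      fun q hq => ?_⟩
    rw [s56gdr_loc_comm, hx₀ q hq, hξ' q hq]

/-- **[D4]**: the level-cohomology form of the duality seam implies the seam. -/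
theorem s56gdr_main (h : s56gdr_LvDual_stmt) : s56gw_Dual_stmt := by
  intro p _ hp2 M _ hsm
  obtain ⟨DS⟩ := h p hp2 M hsm
  exact ⟨s56gdr_ofLv DS⟩

end Fermat.Agent.S56
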