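import Fermat.Agent.S56.GW.Dual.Seams
import Fermat.Agent.S56.GW.Dual.D4.Main

/-!
# S56, node [GW-DUAL], cell [D4]: the bridge seam (prefix `s56gdr_`)

`s56gdr_bridge : s56gd_Bridge_stmt`, i.e.
`s56gd_LocInv_stmt → s56gd_LD_stmt → s56gd_Rec_stmt → s56gd_ME_stmt → s56gw_Dual_stmt`.
-/

set_option autoImplicit false

open CategoryTheory groupCohomology ExtCitation Fermat.Agent.S55

namespace Fermat.Agent.S56

local notation "GQ" => (AlgebraicClosure ℚ ≃ₐ[ℚ] AlgebraicClosure ℚ)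

/-- The level-cohomology duality system assembled from the cell seams [D1], [D3], [D6], [D7]. -/
noncomputable def s56gdr_lvSys {p : ℕ} [Fact p.Prime] (hp2 : p ≠ 2)
    (M : Rep.{0} (ZMod p) GQ) [FiniteDimensional (ZMod p) M] (hsm : s56gw_Smooth M)
    (I : ∀ q : Nat.Primes, s56gd_LocInv p q)
    (hLD : s56gd_LD_stmt) (hRec : s56gd_Rec_stmt) (hME : s56gd_ME_stmt) :
    s56gdr_LvDualSys p M where
  β q := s56gd_Bq M hsm q (I q)
  fin q := (hLD p hp2 M hsm q (I q)).1
  fin' q := (hLD p hp2 M hsm q (I q)).2.1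
  left q := (hLD p hp2 M hsm q (I q)).2.2.1
  right q := (hLD p hp2 M hsm q (I q)).2.2.2
  recip := hRec p hp2 M hsm I
  middle := hME p hp2 M hsm I

/-- **SEAM [D4]**: the bridge from level cohomology to the frozen vocabulary. -/
theorem s56gdr_bridge : s56gd_Bridge_stmt := by
  intro hInv hLD hRec hME
  refine s56gdr_main ?_
  intro p _ hp2 M _ hsm
  exact ⟨s56gdr_lvSys hp2 M hsm (fun q => (hInv p q).some) hLD hRec hME⟩

end Fermat.Agent.S56
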