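import Fermat.Agent.S55.Trans.H1Bridge
import Fermat.Agent.S56.GW.Seams

/-!
# S56, node [GW-DUAL], cell [D4] (bridge), part (a) (prefix `s56gdr_`)

The frozen continuous classes are level cohomology groups (S55, block [F]):

* `s56gdr_locEquiv M q : lvH1 (tl_levelsLoc q) (tl_Act (s56gw_res M q)) ≃+ ↥(s56gw_cH1 M q)`,
* `s56gdr_globEquiv S M : lvH1 (tl_levelsS S) (tl_Act M) ≃+ ↥(continuousH1S S M)`,
* `s56gdr_loc_comm` : the localisation `s56gw_loc M q` corresponds to the level localisation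
  `(tl_locMor S (primeLocalToGlobal q) M).H1`.
-/

set_option autoImplicit false

open CategoryTheory Module groupCohomology ExtCitation Fermat.Agent.S55

namespace Fermat.Agent.S56

local notation "GQ" => (AlgebraicClosure ℚ ≃ₐ[ℚ] AlgebraicClosure ℚ)

section via

variable {k : Type} [CommRing k] {H : Type} [Group H] (r : H →* GQ) (N : Rep.{0} k H)

/-- The range of the comparison map for a pulled-back level system is `continuousH1 r N`. -/
theorem s56gdr_range_via (x : H1 N) :
    x ∈ continuousH1 r N ↔ ∃ y, tl_H1_hom (tl_levelsVia r) N y = x := by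
  rw [mem_continuousH1_iff]
  constructor
  · rintro ⟨c, hc, rfl⟩
    refine ⟨lvH1mk _ _ ⟨c.1, (tl_mem_cocycles₁_iff N c.1).1 c.2,
      (tl_isLevelConstant₁_iff r _).1 hc⟩, ?_⟩
    rw [tl_H1_hom_mk]
    rfl
  · rintro ⟨y, rfl⟩
    obtain ⟨c, rfl⟩ := lvH1mk_surjective y
    exact ⟨tl_toCocycles₁ _ N c, (tl_isLevelConstant₁_iff r _).2 c.2.2,
      (tl_H1_hom_mk _ N c).symm⟩

/-- Level `H¹` of a pulled-back level system is the frozen `continuousH1`. -/
noncomputable def s56gdr_viaEquiv :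
    lvH1 (tl_levelsVia r) (tl_Act N) ≃+ ↥(continuousH1 r N) :=
  AddEquiv.ofBijective
    ({ toFun := fun y => ⟨tl_H1_hom (tl_levelsVia r) N y, (s56gdr_range_via r N _).2 ⟨y, rfl⟩⟩
       map_zero' := Subtype.ext (map_zero _)
       map_add' := fun y y' => Subtype.ext (map_add (tl_H1_hom (tl_levelsVia r) N) y y') } :
      lvH1 (tl_levelsVia r) (tl_Act N) →+ ↥(continuousH1 r N))
    ⟨fun y y' h => tl_H1_hom_injective _ N (congrArg Subtype.val h),
     fun x => by
      obtain ⟨y, hy⟩ := (s56gdr_range_via r N x.1).1 x.2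
      exact ⟨y, Subtype.ext hy⟩⟩

theorem s56gdr_viaEquiv_coe (y : lvH1 (tl_levelsVia r) (tl_Act N)) :
    ((s56gdr_viaEquiv r N y : ↥(continuousH1 r N)) : H1 N) = tl_H1_hom (tl_levelsVia r) N y :=
  rfl

end via

section glob

variable (S : Finset Nat.Primes) {k : Type} [Field k] (A : Rep.{0} k GQ)

/-- Level `H¹` of `tl_levelsS S` is the frozen `continuousH1S S`. -/
noncomputable def s56gdr_globEquiv :
    lvH1 (tl_levelsS S) (tl_Act A) ≃+ ↥(continuousH1S S A) :=
  AddEquiv.ofBijective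
    ({ toFun := fun y => ⟨tl_H1_hom (tl_levelsS S) A y, (tl_range_H1_hom S A _).2 ⟨y, rfl⟩⟩
       map_zero' := Subtype.ext (map_zero _)
       map_add' := fun y y' => Subtype.ext (map_add (tl_H1_hom (tl_levelsS S) A) y y') } :
      lvH1 (tl_levelsS S) (tl_Act A) →+ ↥(continuousH1S S A))
    ⟨fun y y' h => tl_H1_hom_injective _ A (congrArg Subtype.val h),
     fun x => by
      obtain ⟨y, hy⟩ := (tl_range_H1_hom S A x.1).1 x.2
      exact ⟨y, Subtype.ext hy⟩⟩

theorem s56gdr_globEquiv_coe (y : lvH1 (tl_levelsS S) (tl_Act A)) :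
    ((s56gdr_globEquiv S A y : ↥(continuousH1S S A)) : H1 A) = tl_H1_hom (tl_levelsS S) A y :=
  rfl

variable {H : Type} [Group H] (r : H →* GQ)

/-- The abstract localisation (Mathlib `map`) corresponds to the level localisation. -/
theorem s56gdr_map_H1_hom (y : lvH1 (tl_levelsS S) (tl_Act A)) :
    (groupCohomology.map r (𝟙 (Rep.res r A)) 1).hom (tl_H1_hom (tl_levelsS S) A y) =
      tl_H1_hom (tl_levelsVia r) (Rep.res r A) ((tl_locMor S r A).H1 y) := by
  obtain ⟨c, rfl⟩ := lvH1mk_surjective y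
  rw [tl_H1_hom_mk, H1π_comp_map_apply, LvMor.H1_mk, tl_H1_hom_mk]
  rfl

end glob

section prime

variable {p : ℕ} [Fact p.Prime] (M : Rep.{0} (ZMod p) GQ) (q : Nat.Primes)

/-- Level `H¹` of the local Galois group at `q` is `s56gw_cH1 M q`. -/
noncomputable def s56gdr_locEquiv :
    lvH1 (tl_levelsLoc q) (tl_Act (s56gw_res M q)) ≃+ ↥(s56gw_cH1 M q) :=
  s56gdr_viaEquiv (primeLocalToGlobal q) (s56gw_res M q)

theorem s56gdr_locEquiv_coe (y : lvH1 (tl_levelsLoc q) (tl_Act (s56gw_res M q))) :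
    ((s56gdr_locEquiv M q y : ↥(s56gw_cH1 M q)) : H1 (s56gw_res M q)) =
      tl_H1_hom (tl_levelsLoc q) (s56gw_res M q) y := rfl

/-- The local level cohomology `H¹(G_q, M)`. -/
abbrev s56gdr_lvLoc : Type := lvH1 (tl_levelsLoc q) (tl_Act (s56gw_res M q))

/-- The global level cohomology `H¹(G_S, M)`. -/
abbrev s56gdr_lvGlob (S : Finset Nat.Primes) : Type := lvH1 (tl_levelsS S) (tl_Act M)

/-- The level localisation map `H¹(G_S, M) → H¹(G_q, M)`
(`= (tl_locMor S (primeLocalToGlobal q) M).H1`, by `rfl`). -/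
noncomputable def s56gdr_lvRes (S : Finset Nat.Primes) :
    s56gdr_lvGlob M S →+ s56gdr_lvLoc M q :=
  (tl_locMor S (primeLocalToGlobal q) M).H1

theorem s56gdr_lvRes_apply (S : Finset Nat.Primes) (y : s56gdr_lvGlob M S) :
    s56gdr_lvRes M q S y = (tl_locMor S (primeLocalToGlobal q) M).H1 y := rfl

/-- `s56gw_loc` corresponds to the level localisation map. -/
theorem s56gdr_loc_comm (S : Finset Nat.Primes) (y : s56gdr_lvGlob M S) :
    s56gw_loc M q ((s56gdr_globEquiv S M y : ↥(continuousH1S S M)) : H1 M) =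
      ((s56gdr_locEquiv M q (s56gdr_lvRes M q S y) : ↥(s56gw_cH1 M q)) :
        H1 (s56gw_res M q)) :=
  s56gdr_map_H1_hom S M (primeLocalToGlobal q) y

/-- The localisation of a class unramified outside `S` is a continuous local class. -/
theorem s56gdr_loc_mem (S : Finset Nat.Primes) (x : H1 M) (hx : x ∈ continuousH1S S M) :
    s56gw_loc M q x ∈ s56gw_cH1 M q := by
  obtain ⟨y, rfl⟩ := (tl_range_H1_hom S M x).1 hx
  have := s56gdr_loc_comm M q S y
  rw [s56gdr_globEquiv_coe] at this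
  rw [this]
  exact Subtype.property _

end prime

end Fermat.Agent.S56
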